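import Fermat.Agent.IndefiniteUnimodular.Signature
import Fermat.Agent.Root.SummaryHasseMinkowski

/-!
# Positive forms as sums of squares of rational linear forms

By Meyer's theorem a positive form in `n` variables sits inside the sum of `n + 3` rational
squares, and its complement takes an odd integral value.
-/

set_option autoImplicit false
set_option linter.unusedSectionVars false

noncomputable section

namespace FA.FormSquares

open Matrix
open IndefiniteUnimodular (val)

/-- Symmetric with positive values. -/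
def PositiveForm {ι : Type*} [Fintype ι] (A : Matrix ι ι ℤ) : Prop :=
  A.IsSymm ∧ ∀ x : ι → ℤ, x ≠ 0 → 0 < x ⬝ᵥ (A *ᵥ x)

variable {m : ℕ}

theorem sq_sum_pos {u : Fin m → ℚ} (hu : u ≠ 0) : 0 < u ⬝ᵥ u := by
  obtain ⟨i, hi⟩ := Function.ne_iff.1 hu
  exact Finset.sum_pos' (fun j _ => mul_self_nonneg _)
    ⟨i, Finset.mem_univ i, mul_self_pos.2 hi⟩

/-- Orthogonal vectors can be added while there is room. -/
theorem exists_orth {ι : Type*} [Fintype ι] (v : ι → Fin m → ℚ) : ∀ j : ℕ,
    Fintype.card ι + j ≤ m → ∃ u : Fin j → Fin m → ℚ, (∀ i, u i ≠ 0) ∧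
      (∀ i l, u i ⬝ᵥ v l = 0) ∧ ∀ i l, i ≠ l → u i ⬝ᵥ u l = 0 := by
  intro j
  induction j with
  | zero => exact fun _ => ⟨Fin.elim0, fun i => i.elim0, fun i => i.elim0, fun i => i.elim0⟩
  | succ j ih =>
    intro hj
    obtain ⟨u, h0, h1, h2⟩ := ih (by omega)
    obtain ⟨w, hw, hw0⟩ := Submodule.exists_mem_ne_zero_of_ne_bot
      (LinearMap.ker_ne_bot_of_finrank_lt (f := Matrix.mulVecLin (Matrix.of (Sum.elim v u)))
        (by simp; omega))
    have hperp : ∀ i, Sum.elim v u i ⬝ᵥ w = 0 := fun i => by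
      simpa [Matrix.mulVec] using congrFun (LinearMap.mem_ker.1 hw) i
    refine ⟨Fin.snoc u w, fun i => ?_, fun i l => ?_, fun i l hil => ?_⟩
    · induction i using Fin.lastCases <;> simp [hw0, h0]
    · induction i using Fin.lastCases with
      | last => simpa [dotProduct_comm] using hperp (.inl l)
      | cast i => simpa using h1 i l
    · induction i using Fin.lastCases with
      | last =>
        induction l using Fin.lastCases with
        | last => exact absurd rfl hil
        | cast l => simpa [dotProduct_comm] using hperp (.inr l)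
      | cast i =>
        induction l using Fin.lastCases with
        | last => simpa using hperp (.inr i)
        | cast l => simpa using h2 i l fun e => hil (e ▸ rfl)

theorem weighted_combination {j : ℕ} {u : Fin j → Fin m → ℚ}
    (h : ∀ i l, i ≠ l → u i ⬝ᵥ u l = 0) (x : Fin j → ℚ) :
    (∑ i, x i • u i) ⬝ᵥ (∑ i, x i • u i) = ∑ i, x i ^ 2 * (u i ⬝ᵥ u i) := by
  simp only [sum_dotProduct, dotProduct_sum, smul_dotProduct, dotProduct_smul, smul_eq_mul]
  refine Finset.sum_congr rfl fun i _ => ?_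
  rw [Finset.sum_eq_single i (fun l _ hl => by simp [h l i hl])
    (fun hi => absurd (Finset.mem_univ i) hi)]
  ring

theorem perp_combination {j : ℕ} {u : Fin j → Fin m → ℚ} {v : Fin m → ℚ}
    (h : ∀ i, u i ⬝ᵥ v = 0) (x : Fin j → ℚ) : (∑ i, x i • u i) ⬝ᵥ v = 0 := by
  simp [sum_dotProduct, smul_dotProduct, h]

/-- Diagonal forms inside the sum of `n + 3` squares. -/
theorem exists_orth_rep : ∀ (n : ℕ) (a : Fin n → ℚ), (∀ i, 0 < a i) →
    ∃ v : Fin n → Fin (n + 3) → ℚ, (∀ i, v i ⬝ᵥ v i = a i) ∧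
      ∀ i l, i ≠ l → v i ⬝ᵥ v l = 0 := by
  intro n
  induction n with
  | zero => exact fun _ _ => ⟨Fin.elim0, fun i => i.elim0, fun i => i.elim0⟩
  | succ n ih =>
    intro a ha
    obtain ⟨v, hv, hvo⟩ := ih (fun i => a i.castSucc) fun i => ha _
    obtain ⟨v', hv'⟩ : ∃ v' : Fin n → Fin (n + 4) → ℚ, ∀ i, v' i = Fin.snoc (v i) 0 :=
      ⟨_, fun _ => rfl⟩
    have hdot : ∀ i l, v' i ⬝ᵥ v' l = v i ⬝ᵥ v l := fun i l => by
      simp [hv', dotProduct, Fin.sum_univ_castSucc]
    obtain ⟨u, hu0, huv, huo⟩ := exists_orth v' 4 (by simp)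
    obtain ⟨x, hx, hx0⟩ := FA.Summary.meyer_indefinite (ι := Option (Fin 4)) (by simp)
      (fun o => o.elim (-a (Fin.last n)) fun i => u i ⬝ᵥ u i) (i := some 0) (j := none)
      (sq_sum_pos (hu0 0)) (neg_neg_iff_pos.2 (ha _))
    rw [Fintype.sum_option] at hx0
    simp only [Option.elim] at hx0
    have hne : x none ≠ 0 := fun h => hx (funext fun o => by
      rw [h] at hx0
      simp only [zero_pow (two_ne_zero), mul_zero, zero_add] at hx0
      rcases o with _ | i
      · exact h
      · have := (Finset.sum_eq_zero_iff_of_nonneg fun l _ =>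
          mul_nonneg (sq_sum_pos (hu0 l)).le (sq_nonneg (x (some l)))).1 hx0 i (Finset.mem_univ i)
        simpa [(sq_sum_pos (hu0 i)).ne'] using this)
    obtain ⟨w, hw⟩ : ∃ w, w = ∑ i, (x (some i) / x none) • u i := ⟨_, rfl⟩
    have hww : w ⬝ᵥ w = a (Fin.last n) := by
      rw [hw, weighted_combination huo,
        Finset.sum_congr rfl (g := fun i => u i ⬝ᵥ u i * x (some i) ^ 2 / x none ^ 2)
          fun i _ => by rw [div_pow]; ring, ← Finset.sum_div, div_eq_iff (pow_ne_zero 2 hne)]
      linarith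
    have hwv : ∀ i, w ⬝ᵥ v' i = 0 := fun i => by
      rw [hw]
      exact perp_combination (fun l => huv l i) _
    refine ⟨Fin.snoc v' w, fun i => ?_, fun i l hil => ?_⟩
    · induction i using Fin.lastCases with
      | last => simpa using hww
      | cast i => simpa [hdot] using hv i
    · induction i using Fin.lastCases with
      | last =>
        induction l using Fin.lastCases with
        | last => exact absurd rfl hil
        | cast l => simpa using hwv l
      | cast i =>
        induction l using Fin.lastCases with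
        | last => simpa [dotProduct_comm] using hwv i
        | cast l => simpa [hdot] using hvo i l fun e => hil (e ▸ rfl)

/-- A rational diagonalisation with positive weights. -/
theorem exists_pos_diag {n : ℕ} {A : Matrix (Fin n) (Fin n) ℤ} (hA : PositiveForm A) :
    ∃ (w : Fin n → ℚ) (P : Matrix (Fin n) (Fin n) ℚ),
      (∀ i, 0 < w i) ∧ A.map (fun z : ℤ => (z : ℚ)) = Pᵀ * diagonal w * P := by
  obtain ⟨k, w, hd⟩ := IndefiniteUnimodular.exists_ratDiag hA.1
  obtain rfl : k = n := by simpa using hd.card_eq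
  obtain ⟨P, R, h1, h2, h3⟩ := hd
  refine ⟨w, P, fun i => ?_, h3⟩
  obtain ⟨N, y, hN, hy⟩ := IndefiniteUnimodular.exists_clear_denominators (R *ᵥ Pi.single i 1)
  have hy' : (fun j => (y j : ℚ)) = (N : ℚ) • (R *ᵥ Pi.single i 1) := funext hy
  have hval : (val A y : ℚ) = (N : ℚ) ^ 2 * w i := by
    rw [IndefiniteUnimodular.cast_val, hy', Matrix.mulVec_smul, smul_dotProduct, dotProduct_smul,
      h3, ← Matrix.mulVec_mulVec, ← Matrix.mulVec_mulVec, dotProduct_transpose_mulVec,
      Matrix.mulVec_mulVec, Matrix.mulVec_mulVec, Matrix.mul_assoc, h2, Matrix.mul_one,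
      Matrix.mulVec_mulVec, h2, Matrix.one_mulVec]
    simp
    ring
  have hy0 : y ≠ 0 := fun h => by
    have h0 : R *ᵥ Pi.single i (1 : ℚ) = 0 := funext fun j => by
      have := hy j
      rw [h] at this
      simpa [hN.ne'] using this.symm
    have := congrArg (fun z => P *ᵥ z) h0
    simp only [Matrix.mulVec_mulVec, h2, Matrix.one_mulVec, Matrix.mulVec_zero] at this
    simpa using congrFun this i
  have hp : (0 : ℚ) < val A y := by exact_mod_cast hA.2 y hy0
  rw [hval] at hp
  exact (mul_pos_iff_of_pos_left (by positivity)).1 hp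

/-- An odd value of a positive ternary diagonal form. -/
theorem exists_odd_value {e : Fin 3 → ℚ} (he : ∀ i, 0 < e i) :
    ∃ (x : Fin 3 → ℚ) (o : ℤ), ¬ 2 ∣ o ∧ ∑ i, x i ^ 2 * e i = o := by
  have hred : ∀ i, ∃ (r : ℚ) (u : ℕ), ¬ 2 ∣ u ∧
      (r ^ 2 * e i = u ∨ r ^ 2 * e i = 2 * (u : ℚ)) := fun i => by
    obtain ⟨k, u, hu, hk⟩ := Nat.exists_eq_two_pow_mul_odd
      (n := (e i).num.toNat * (e i).den) (Nat.mul_ne_zero (by
        have := Rat.num_pos.2 (he i)
        omega) (e i).den_nz)
    have hq : ((e i).den : ℚ) ^ 2 * e i = ((2 : ℚ) ^ k) * u := by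
      rw [show (2 : ℚ) ^ k * u = ((2 ^ k * u : ℕ) : ℚ) by push_cast; rfl, ← hk]
      have hn : (((e i).num.toNat : ℕ) : ℚ) = ((e i).num : ℚ) := by
        exact_mod_cast Int.toNat_of_nonneg (Rat.num_nonneg.2 (he i).le)
      have := Rat.mul_den_eq_num (e i)
      push_cast
      rw [hn]
      linear_combination ((e i).den : ℚ) * this
    obtain ⟨t, rfl | rfl⟩ := Nat.even_or_odd' k
    · refine ⟨(e i).den / 2 ^ t, u, by rwa [← even_iff_two_dvd, Nat.not_even_iff_odd], .inl ?_⟩
      rw [div_pow, div_mul_eq_mul_div, hq, ← pow_mul, mul_comm t 2]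
      field_simp
    · refine ⟨(e i).den / 2 ^ t, u, by rwa [← even_iff_two_dvd, Nat.not_even_iff_odd], .inr ?_⟩
      rw [div_pow, div_mul_eq_mul_div, hq, ← pow_mul, mul_comm t 2, pow_succ]
      field_simp
  choose r u hu hr using hred
  by_cases h : ∃ i, r i ^ 2 * e i = u i
  · obtain ⟨i, hi⟩ := h
    refine ⟨Pi.single i (r i), u i, by exact_mod_cast hu i, ?_⟩
    rw [Finset.sum_eq_single i (fun l _ hl => by simp [hl])
      (fun h => absurd (Finset.mem_univ i) h)]
    simpa using hi
  push Not at h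
  obtain ⟨i, j, hij, hmod⟩ : ∃ i j, i ≠ j ∧ u i % 4 = u j % 4 := by
    have := hu 0
    have := hu 1
    have := hu 2
    rcases (show u 0 % 4 = u 1 % 4 ∨ u 0 % 4 = u 2 % 4 ∨ u 1 % 4 = u 2 % 4 by omega) with
      e | e | e
    · exact ⟨0, 1, by decide, e⟩
    · exact ⟨0, 2, by decide, e⟩
    · exact ⟨1, 2, by decide, e⟩
  have := hu i
  refine ⟨Pi.single i (r i / 2) + Pi.single j (r j / 2), (((u i + u j) / 2 : ℕ) : ℤ), by omega, ?_⟩
  rw [Int.cast_natCast, Nat.cast_div (by omega) two_ne_zero,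
    Fintype.sum_eq_add i j hij fun l hl => by simp [hl.1, hl.2]]
  have hi := (hr i).resolve_left (h i)
  have hj := (hr j).resolve_left (h j)
  simp [hij, hij.symm]
  linear_combination (hi + hj) / 4

/-- **Mordell's theorem over the rationals**, with an odd value on the complement. -/
theorem exists_rational_rep {n : ℕ} {A : Matrix (Fin n) (Fin n) ℤ} (hA : PositiveForm A) :
    ∃ (T : Matrix (Fin (n + 3)) (Fin n) ℚ) (s : Fin (n + 3) → ℚ) (o : ℤ),
      A.map (fun z : ℤ => (z : ℚ)) = Tᵀ * T ∧ Tᵀ *ᵥ s = 0 ∧ s ⬝ᵥ s = o ∧ ¬ 2 ∣ o := by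
  obtain ⟨w, P, hw, hP⟩ := exists_pos_diag hA
  obtain ⟨v, hv, hvo⟩ := exists_orth_rep n w hw
  obtain ⟨u, hu0, huv, huo⟩ := exists_orth v 3 (by simp)
  obtain ⟨x, o, ho, hx⟩ := exists_odd_value fun i => sq_sum_pos (hu0 i)
  refine ⟨(Matrix.of v)ᵀ * P, ∑ i, x i • u i, o, ?_, ?_,
    (weighted_combination huo x).trans hx, ho⟩
  · rw [hP, Matrix.transpose_mul, transpose_transpose, Matrix.mul_assoc Pᵀ,
      Matrix.mul_assoc Pᵀ, ← Matrix.mul_assoc (Matrix.of v)]
    congr 2
    ext i l
    rw [show (Matrix.of v * (Matrix.of v)ᵀ) i l = v i ⬝ᵥ v l from rfl, diagonal_apply]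
    split_ifs with hil
    · rw [hil, hv]
    · rw [hvo i l hil]
  · rw [Matrix.transpose_mul, transpose_transpose, ← Matrix.mulVec_mulVec,
      show Matrix.of v *ᵥ ∑ i, x i • u i = 0 from funext fun l => by
        rw [show (Matrix.of v *ᵥ ∑ i, x i • u i) l = v l ⬝ᵥ ∑ i, x i • u i from rfl,
          dotProduct_comm]
        exact perp_combination (fun i => huv i l) x,
      Matrix.mulVec_zero]

end FA.FormSquares

end
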