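import Fermat.Agent.CharacteristicVectors.LowRank
import Fermat.Agent.FormSquares.Rational
import Mathlib.Algebra.Module.CharacterModule
import Mathlib.LinearAlgebra.FreeModule.PID

/-!
# Maximal integral lattices next to a unimodular one

A maximal integral lattice in a rational space that contains a unimodular lattice is unimodular.
Hence a positive lattice of rank `n` lies in an odd unimodular one of rank `n + 3`, and is a sum
of `n + 3` squares of linear forms when `n ≤ 5`.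
-/

set_option autoImplicit false
set_option linter.unusedSectionVars false

noncomputable section

namespace FA.FormSquares

open Matrix
open IndefiniteUnimodular (val Iso EvenForm)
open CharacteristicVectors (PosUnimodular)

variable {m : ℕ}

/-- All inner products are divisible by `N`. -/
def ScaledIntegral (N : ℤ) (M : Submodule ℤ (Fin m → ℤ)) : Prop :=
  ∀ x ∈ M, ∀ y ∈ M, N ∣ x ⬝ᵥ y

theorem scaledIntegral_span {N : ℤ} {S : Set (Fin m → ℤ)}
    (h : ∀ x ∈ S, ∀ y ∈ S, N ∣ x ⬝ᵥ y) : ScaledIntegral N (Submodule.span ℤ S) := by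
  intro x hx y hy
  induction hx, hy using Submodule.span_induction₂ with
  | mem_mem x y hx hy => exact h x hx y hy
  | zero_left y hy => simp
  | zero_right x hx => simp
  | add_left x y z _ _ _ h1 h2 => rw [add_dotProduct]; exact dvd_add h1 h2
  | add_right x y z _ _ _ h1 h2 => rw [dotProduct_add]; exact dvd_add h1 h2
  | smul_left r x y _ _ h1 => rw [smul_dotProduct]; exact h1.mul_left r
  | smul_right r x y _ _ h1 => rw [dotProduct_smul]; exact h1.mul_left r

/-- A linear functional modulo `D` vanishing on `L` but not at `x`. -/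
theorem exists_functional {D : ℤ} (hD : D ≠ 0) {L : Submodule ℤ (Fin m → ℤ)}
    (hL : ∀ j, D • Pi.single j 1 ∈ L) {x : Fin m → ℤ} (hx : x ∉ L) :
    ∃ k : Fin m → ℤ, (∀ y ∈ L, D ∣ y ⬝ᵥ k) ∧ ¬ D ∣ x ⬝ᵥ k := by
  obtain ⟨c, hc⟩ := CharacterModule.exists_character_apply_ne_zero_of_ne_zero
    (a := (Submodule.Quotient.mk x : (Fin m → ℤ) ⧸ L))
    fun h => hx ((Submodule.Quotient.mk_eq_zero L).1 h)
  obtain ⟨g, hg⟩ : ∃ g : (Fin m → ℤ) →ₗ[ℤ] AddCircle (1 : ℚ),
      ∀ y, g y = c (Submodule.Quotient.mk y) :=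
    ⟨(AddMonoidHom.toIntLinearMap c).comp (Submodule.mkQ L), fun _ => rfl⟩
  have hgL : ∀ y ∈ L, g y = 0 := fun y hy => by
    rw [hg, (Submodule.Quotient.mk_eq_zero L).2 hy, map_zero]
  have hk : ∀ j, ∃ k : ℤ, g (Pi.single j 1) = ((k / D : ℚ) : AddCircle (1 : ℚ)) := fun j => by
    obtain ⟨q, hq⟩ := QuotientAddGroup.mk_surjective (g (Pi.single j 1))
    have h0 : ((D • q : ℚ) : AddCircle (1 : ℚ)) = 0 := by
      rw [AddCircle.coe_zsmul, show (q : AddCircle (1 : ℚ)) = g (Pi.single j 1) from hq,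
        ← map_zsmul, hgL _ (hL j)]
    obtain ⟨k, hk⟩ := (AddCircle.coe_eq_zero_iff 1).1 h0
    refine ⟨k, hq.symm.trans (congrArg _ ?_)⟩
    rw [zsmul_eq_mul, mul_one, zsmul_eq_mul] at hk
    rw [hk]
    field_simp
  choose k hk using hk
  have hval : ∀ y, g y = (((y ⬝ᵥ k : ℤ) / D : ℚ) : AddCircle (1 : ℚ)) := fun y => by
    obtain ⟨φ, hφ⟩ : ∃ φ : ℚ →+ AddCircle (1 : ℚ), ∀ q : ℚ, φ q = (q : AddCircle (1 : ℚ)) :=
      ⟨QuotientAddGroup.mk' _, fun _ => rfl⟩
    conv_lhs => rw [pi_eq_sum_univ' y]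
    rw [map_sum, ← hφ, dotProduct, Int.cast_sum, Finset.sum_div, map_sum]
    refine Finset.sum_congr rfl fun j _ => ?_
    rw [map_zsmul, hk, ← hφ, ← map_zsmul, zsmul_eq_mul, Int.cast_mul, mul_div_assoc]
  have hzero : ∀ y, g y = 0 ↔ D ∣ y ⬝ᵥ k := fun y => by
    rw [hval, AddCircle.coe_eq_zero_iff]
    refine ⟨fun ⟨z, hz⟩ => ⟨z, ?_⟩, fun ⟨z, hz⟩ => ⟨z, ?_⟩⟩
    · rw [zsmul_eq_mul, mul_one, eq_div_iff (Int.cast_ne_zero.2 hD)] at hz
      exact_mod_cast hz.symm.trans (mul_comm _ _)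
    · rw [hz, zsmul_eq_mul, mul_one, Int.cast_mul]
      field_simp
  exact ⟨k, fun y hy => (hzero y).1 (hgL y hy), fun h => hc (by rw [← hg, (hzero x).2 h])⟩

/-- **A maximal integral lattice is unimodular**, when the space has a unimodular one. -/
theorem exists_self_dual {D : ℤ} (hD : D ≠ 0) {M₀ : Submodule ℤ (Fin m → ℤ)}
    (h₀ : ScaledIntegral (D ^ 2) M₀) :
    ∃ M, M₀ ≤ M ∧ ScaledIntegral (D ^ 2) M ∧ ∀ x, (∀ y ∈ M, D ^ 2 ∣ x ⬝ᵥ y) → x ∈ M := by
  obtain ⟨M, ⟨hle, hM⟩, hmax⟩ := set_has_maximal_iff_noetherian.2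
    (inferInstance : IsNoetherian ℤ (Fin m → ℤ))
    {M | M₀ ≤ M ∧ ScaledIntegral (D ^ 2) M} ⟨M₀, le_rfl, h₀⟩
  refine ⟨M, hle, hM, fun x hx => ?_⟩
  have habsorb : ∀ w, (∀ y ∈ M, D ^ 2 ∣ w ⬝ᵥ y) → D ^ 2 ∣ w ⬝ᵥ w → w ∈ M := fun w hw hww => by
    have h : ScaledIntegral (D ^ 2) (Submodule.span ℤ (insert w M)) :=
      scaledIntegral_span fun a ha b hb => by
        rcases ha with rfl | ha <;> rcases hb with rfl | hb
        · exact hww
        · exact hw b hb
        · rw [dotProduct_comm]; exact hw a ha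
        · exact hM a ha b hb
    by_contra hwM
    refine hmax _ ⟨hle.trans fun y hy => Submodule.subset_span (Set.mem_insert_of_mem _ hy), h⟩ ?_
    exact lt_of_le_not_ge (fun y hy => Submodule.subset_span (Set.mem_insert_of_mem _ hy))
      fun hge => hwM (hge (Submodule.subset_span (Set.mem_insert _ _)))
  by_cases hxL : ∃ y ∈ M, ∀ j, D ∣ x j - y j
  · obtain ⟨y, hy, hd⟩ := hxL
    choose z hz using hd
    have hxy : x = y + D • z := funext fun j => by
      simp only [Pi.add_apply, Pi.smul_apply, smul_eq_mul]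
      linarith [hz j]
    have hxy' : D • z = x - y := by rw [hxy]; simp
    rw [hxy]
    refine add_mem hy (habsorb _ (fun w hw => ?_) ?_)
    · rw [hxy', sub_dotProduct]
      exact dvd_sub (hx w hw) (hM y hy w hw)
    · rw [smul_dotProduct, dotProduct_smul, smul_eq_mul, smul_eq_mul, ← mul_assoc, ← sq]
      exact dvd_mul_right _ _
  obtain ⟨L, hL⟩ : ∃ L : Submodule ℤ (Fin m → ℤ),
      L = M ⊔ LinearMap.range (D • (LinearMap.id : (Fin m → ℤ) →ₗ[ℤ] Fin m → ℤ)) := ⟨_, rfl⟩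
  have hI : ∀ v : Fin m → ℤ, D • v ∈ L := fun v =>
    hL ▸ Submodule.mem_sup_right ⟨v, by simp⟩
  have hxL' : x ∉ L := fun h => by
    rw [hL, Submodule.mem_sup] at h
    obtain ⟨y, hy, _, ⟨v, rfl⟩, rfl⟩ := h
    exact hxL ⟨y, hy, fun j => ⟨v j, by simp⟩⟩
  obtain ⟨k, hk, hkx⟩ := exists_functional hD (fun j => hI _) hxL'
  refine absurd ?_ hkx
  have hkM : D • k ∈ M := habsorb _ (fun y hy => by
    rw [smul_dotProduct, dotProduct_comm, smul_eq_mul, sq]
    exact mul_dvd_mul_left D (hk y (hL ▸ Submodule.mem_sup_left hy))) (by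
    rw [smul_dotProduct, dotProduct_smul, smul_eq_mul, smul_eq_mul, ← mul_assoc, ← sq]
    exact dvd_mul_right _ _)
  have := hx _ hkM
  rw [dotProduct_smul, smul_eq_mul, sq] at this
  exact (mul_dvd_mul_iff_left hD).1 this

/-- A basis turns a self-dual lattice into a unimodular matrix. -/
theorem exists_gram {D : ℤ} (hD : D ≠ 0) {M : Submodule ℤ (Fin m → ℤ)}
    (hM : ScaledIntegral (D ^ 2) M) (hdual : ∀ x, (∀ y ∈ M, D ^ 2 ∣ x ⬝ᵥ y) → x ∈ M) :
    ∃ (B G : Matrix (Fin m) (Fin m) ℤ), Bᵀ * B = D ^ 2 • G ∧ PosUnimodular G ∧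
      ∀ x ∈ M, ∃ z, B *ᵥ z = x := by
  obtain ⟨k, b⟩ := Submodule.basisOfPid (Pi.basisFun ℤ (Fin m)) M
  obtain ⟨B, hB⟩ : ∃ B : Matrix (Fin m) (Fin k) ℤ, ∀ i j, B i j = (b j : Fin m → ℤ) i :=
    ⟨Matrix.of fun i j => (b j : Fin m → ℤ) i, fun _ _ => rfl⟩
  have hcol : ∀ x ∈ M, ∃ z, B *ᵥ z = x := fun x hx => by
    refine ⟨b.repr ⟨x, hx⟩, funext fun i => ?_⟩
    have := congrArg (fun y : M => (y : Fin m → ℤ) i) (b.sum_repr ⟨x, hx⟩)
    simp only [Submodule.coe_sum, Submodule.coe_smul, Finset.sum_apply, Pi.smul_apply,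
      smul_eq_mul] at this
    rw [← this]
    simp [Matrix.mulVec, dotProduct, hB, mul_comm]
  have hbig : ∀ v : Fin m → ℤ, D ^ 2 • v ∈ M := fun v => hdual _ fun y _ => by
    rw [smul_dotProduct, smul_eq_mul]
    exact dvd_mul_right _ _
  obtain rfl : k = m := by
    have h1 : Module.finrank ℤ M = k := by
      simpa using Module.finrank_eq_card_basis b
    have h2 : Module.finrank ℤ M ≤ m := by simpa using Submodule.finrank_le M
    obtain ⟨f, hf⟩ : ∃ f : (Fin m → ℤ) →ₗ[ℤ] M, ∀ v, (f v : Fin m → ℤ) = D ^ 2 • v :=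
      ⟨LinearMap.codRestrict M ((D ^ 2) • LinearMap.id) hbig, fun _ => rfl⟩
    have h3 := LinearMap.finrank_le_finrank_of_injective (f := f) fun v w h =>
      smul_right_injective (Fin m → ℤ) (pow_ne_zero 2 hD)
        (show D ^ 2 • v = D ^ 2 • w by rw [← hf, ← hf, h])
    simp at h3
    omega
  choose W hW using fun j => hcol _ (hbig (Pi.single j 1))
  have hBW : B * Matrix.of (fun i j => W j i) = D ^ 2 • 1 := by
    ext i j
    refine (congrFun (hW j) i).trans ?_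
    simp [Matrix.one_apply, Pi.single_apply]
  have hcolmem : ∀ z, B *ᵥ z ∈ M := fun z => by
    rw [show B *ᵥ z = ∑ j, z j • (b j : Fin k → ℤ) from funext fun i => by
      simp [Matrix.mulVec, dotProduct, hB, mul_comm]]
    exact Submodule.sum_mem _ fun j _ => M.smul_mem _ (b j).2
  choose G hG using fun i j =>
    hM _ (hcolmem (Pi.single i 1)) _ (hcolmem (Pi.single j 1))
  have hBB : Bᵀ * B = D ^ 2 • Matrix.of G := by
    ext i j
    rw [Matrix.smul_apply, Matrix.of_apply, smul_eq_mul, ← hG i j, mulVec_single_one,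
      mulVec_single_one]
    rfl
  obtain ⟨W', hW'⟩ : ∃ W' : Matrix (Fin k) (Fin k) ℤ, B * W' = D ^ 2 • 1 := ⟨_, hBW⟩
  have hBdet : B.det ≠ 0 := fun h => by
    have e := congrArg Matrix.det hW'
    rw [det_mul, h, zero_mul, det_smul, det_one, mul_one] at e
    exact pow_ne_zero _ (pow_ne_zero 2 hD) e.symm
  have hWB : W' * B = D ^ 2 • 1 := by
    have hz : B.adjugate * (B * (W' * B - D ^ 2 • 1)) = 0 := by
      rw [Matrix.mul_sub, ← Matrix.mul_assoc B, hW', Matrix.smul_mul, Matrix.one_mul,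
        Matrix.mul_smul, Matrix.mul_one, sub_self, Matrix.mul_zero]
    rw [← Matrix.mul_assoc, Matrix.adjugate_mul, Matrix.smul_mul, Matrix.one_mul] at hz
    exact sub_eq_zero.1 ((smul_eq_zero.1 hz).resolve_left hBdet)
  have hdualcol : ∀ j, ∃ z, B *ᵥ z = W'ᵀ *ᵥ Pi.single j 1 := fun j => hcol _ (hdual _ fun y hy => by
    obtain ⟨z, rfl⟩ := hcol y hy
    rw [dotProduct_comm, Matrix.dotProduct_mulVec, Matrix.vecMul_transpose, Matrix.mulVec_mulVec,
      hWB, Matrix.smul_mulVec, Matrix.one_mulVec, smul_dotProduct, smul_eq_mul]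
    exact dvd_mul_right _ _)
  choose K hK using hdualcol
  have hBK : B * Matrix.of (fun i j => K j i) = W'ᵀ := by
    ext i j
    have := congrFun (hK j) i
    rw [mulVec_single_one] at this
    exact this
  have hGK : Matrix.of G * Matrix.of (fun i j => K j i) = 1 := by
    refine smul_right_injective (Matrix (Fin k) (Fin k) ℤ) (pow_ne_zero 2 hD) ?_
    show D ^ 2 • _ = D ^ 2 • _
    rw [← Matrix.smul_mul, ← hBB, Matrix.mul_assoc, hBK, ← Matrix.transpose_mul, hWB,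
      Matrix.transpose_smul, Matrix.transpose_one]
  refine ⟨B, Matrix.of G, hBB, ⟨⟨?_, isUnit_det_of_right_inverse hGK⟩, fun z hz => ?_⟩, hcol⟩
  · refine smul_right_injective (Matrix (Fin k) (Fin k) ℤ) (pow_ne_zero 2 hD) ?_
    show D ^ 2 • _ = D ^ 2 • _
    rw [← Matrix.transpose_smul, ← hBB, Matrix.transpose_mul, transpose_transpose]
  · obtain ⟨i, hi⟩ := Function.ne_iff.1 fun e => hz (mulVec_injective_of_det_ne_zero hBdet
      (e.trans (Matrix.mulVec_zero B).symm))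
    have h : D ^ 2 * val (Matrix.of G) z = (B *ᵥ z) ⬝ᵥ (B *ᵥ z) := by
      rw [← smul_eq_mul, val, ← dotProduct_smul, ← Matrix.smul_mulVec, ← hBB,
        ← Matrix.mulVec_mulVec, dotProduct_transpose_mulVec]
    have hpos : 0 < (B *ᵥ z) ⬝ᵥ (B *ᵥ z) :=
      Finset.sum_pos' (fun l _ => mul_self_nonneg _) ⟨i, Finset.mem_univ i, mul_self_pos.2 hi⟩
    rw [← h] at hpos
    exact (mul_pos_iff_of_pos_left (by positivity)).1 hpos

/-- **An odd unimodular lattice of rank `n + 3` around a positive lattice of rank `n`.** -/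
theorem exists_overlattice {n : ℕ} {A : Matrix (Fin n) (Fin n) ℤ} (hA : PositiveForm A) :
    ∃ (G : Matrix (Fin (n + 3)) (Fin (n + 3)) ℤ) (P : Matrix (Fin (n + 3)) (Fin n) ℤ),
      PosUnimodular G ∧ ¬ EvenForm G ∧ Pᵀ * G * P = A := by
  obtain ⟨T, s, o, hT, hTs, hss, ho⟩ := exists_rational_rep hA
  obtain ⟨⟨D, hD⟩, hint⟩ := IsLocalization.exist_integer_multiples_of_finite (nonZeroDivisors ℤ)
    (Sum.elim (fun p : Fin (n + 3) × Fin n => T p.1 p.2) s)
  choose Y hY using hint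
  have hD0 : D ≠ 0 := nonZeroDivisors.ne_zero hD
  have hYT : ∀ i j, (Y (.inl (i, j)) : ℚ) = D * T i j := fun i j => by
    simpa using hY (.inl (i, j))
  have hYs : ∀ i, (Y (.inr i) : ℚ) = D * s i := fun i => by simpa using hY (.inr i)
  obtain ⟨col, hcolv⟩ : ∃ col : Fin n → Fin (n + 3) → ℤ, ∀ j i, col j i = Y (.inl (i, j)) :=
    ⟨fun j i => Y (.inl (i, j)), fun _ _ => rfl⟩
  obtain ⟨sv, hsv⟩ : ∃ sv : Fin (n + 3) → ℤ, ∀ i, sv i = Y (.inr i) := ⟨_, fun _ => rfl⟩
  have hA' : ∀ j l, col j ⬝ᵥ col l = D ^ 2 * A j l := fun j l => by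
    have h : ((col j ⬝ᵥ col l : ℤ) : ℚ) = ((D ^ 2 * A j l : ℤ) : ℚ) := by
      rw [Int.cast_mul, Int.cast_pow, show ((A j l : ℤ) : ℚ) = (Tᵀ * T) j l by rw [← hT]; rfl,
        Matrix.mul_apply, dotProduct, Int.cast_sum, Finset.mul_sum]
      refine Finset.sum_congr rfl fun i _ => ?_
      rw [hcolv, hcolv, Int.cast_mul, hYT, hYT, transpose_apply]
      ring
    exact_mod_cast h
  have hperp : ∀ j, col j ⬝ᵥ sv = 0 := fun j => by
    have h : ((col j ⬝ᵥ sv : ℤ) : ℚ) = (D : ℚ) ^ 2 * (Tᵀ *ᵥ s) j := by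
      rw [dotProduct, Int.cast_sum, Matrix.mulVec, dotProduct, Finset.mul_sum]
      refine Finset.sum_congr rfl fun i _ => ?_
      rw [hcolv, hsv, Int.cast_mul, hYT, hYs, transpose_apply]
      ring
    rw [hTs, Pi.zero_apply, mul_zero] at h
    exact_mod_cast h
  have hsq : sv ⬝ᵥ sv = D ^ 2 * o := by
    have h : ((sv ⬝ᵥ sv : ℤ) : ℚ) = ((D ^ 2 * o : ℤ) : ℚ) := by
      rw [Int.cast_mul, Int.cast_pow, ← hss, dotProduct, dotProduct, Int.cast_sum, Finset.mul_sum]
      refine Finset.sum_congr rfl fun i _ => ?_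
      rw [hsv, Int.cast_mul, hYs]
      ring
    exact_mod_cast h
  have h₀ : ScaledIntegral (D ^ 2) (Submodule.span ℤ (insert sv (Set.range col))) :=
    scaledIntegral_span fun a ha b hb => by
      rcases ha with rfl | ⟨j, rfl⟩ <;> rcases hb with rfl | ⟨l, rfl⟩
      · exact hsq ▸ dvd_mul_right _ _
      · rw [dotProduct_comm, hperp]
        exact dvd_zero _
      · rw [hperp]
        exact dvd_zero _
      · exact hA' j l ▸ dvd_mul_right _ _
  obtain ⟨M, hle, hM, hdual⟩ := exists_self_dual hD0 h₀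
  obtain ⟨B, G, hBB, hG, hspan⟩ := exists_gram hD0 hM hdual
  have hinner : ∀ z w, (B *ᵥ z) ⬝ᵥ (B *ᵥ w) = D ^ 2 * (z ⬝ᵥ (G *ᵥ w)) := fun z w => by
    rw [← smul_eq_mul, ← dotProduct_smul, ← Matrix.smul_mulVec, ← hBB,
      ← Matrix.mulVec_mulVec, dotProduct_transpose_mulVec, dotProduct_comm]
  choose z hz using fun j =>
    hspan (col j) (hle (Submodule.subset_span (Set.mem_insert_of_mem _ ⟨j, rfl⟩)))
  obtain ⟨zs, hzs⟩ := hspan sv (hle (Submodule.subset_span (Set.mem_insert _ _)))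
  refine ⟨G, Matrix.of fun i j => z j i, hG, fun he => ho ?_, ?_⟩
  · have h := hinner zs zs
    rw [hzs, hsq] at h
    rw [mul_left_cancel₀ (pow_ne_zero 2 hD0) h]
    exact even_iff_two_dvd.1 (he zs)
  · ext j l
    refine mul_left_cancel₀ (pow_ne_zero 2 hD0) ?_
    rw [← hA', ← hz, ← hz, hinner, Matrix.mul_assoc]
    rfl

/-- **The theorem of Mordell and Ko.** -/
theorem exists_squares {n : ℕ} (hn : n ≤ 5) {A : Matrix (Fin n) (Fin n) ℤ} (hA : PositiveForm A) :
    ∃ P : Matrix (Fin (n + 3)) (Fin n) ℤ, A = Pᵀ * P := by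
  obtain ⟨G, P, hG, hodd, hGP⟩ := exists_overlattice hA
  have hiso : Iso G (1 : Matrix (Fin (n + 3)) (Fin (n + 3)) ℤ) := by
    rcases eq_or_lt_of_le hn with rfl | h
    · exact (CharacteristicVectors.rank_eight hG).resolve_right fun h =>
        hodd (h.evenForm_iff.2 IndefiniteUnimodular.evenForm_e8)
    · exact CharacteristicVectors.iso_one_of_rank_le_seven (by omega) hG
  obtain ⟨R, S, hRS, -, hR⟩ := hiso.symm
  refine ⟨R * P, ?_⟩
  rw [← hGP, hR, Matrix.mul_one, Matrix.transpose_mul]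
  simp only [Matrix.mul_assoc]

end FA.FormSquares

end
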