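import Fermat.Agent.FormSquares.Overlattice

/-!
# Forms that need many squares, or that are no sum of squares

`n - 1` units and a seven need `n + 3` squares, and the lattice `E₆` is a sum of no number of
squares of linear forms (Mordell).
-/

set_option autoImplicit false
set_option linter.unusedSectionVars false

noncomputable section

namespace FA.FormSquares

open Matrix
open IndefiniteUnimodular (val Iso dsum)

theorem dot_col {ι κ : Type*} [Fintype ι] (P : Matrix ι κ ℤ) (j l : κ) :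
    (fun i => P i j) ⬝ᵥ (fun i => P i l) = (Pᵀ * P) j l := rfl

/-- Units and a seven. -/
def sevenForm (k : ℕ) : Matrix (Fin (k + 1)) (Fin (k + 1)) ℤ :=
  diagonal (Fin.snoc (fun _ => 1) 7)

theorem positiveForm_seven (k : ℕ) : PositiveForm (sevenForm k) := by
  refine ⟨isSymm_diagonal _, fun x hx => ?_⟩
  obtain ⟨i, hi⟩ := Function.ne_iff.1 hx
  show 0 < val (sevenForm k) x
  rw [sevenForm, IndefiniteUnimodular.val_diagonal]
  have hpos : ∀ l : Fin (k + 1), (0 : ℤ) < (Fin.snoc (fun _ => 1) 7 : Fin (k + 1) → ℤ) l :=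
    fun l => by induction l using Fin.lastCases <;> simp
  exact Finset.sum_pos' (fun l _ => mul_nonneg (hpos l).le (sq_nonneg _))
    ⟨i, Finset.mem_univ i, mul_pos (hpos i) (pow_two_pos_of_ne_zero hi)⟩

theorem seven_not_three_squares (a b c : ℤ) : a ^ 2 + b ^ 2 + c ^ 2 ≠ 7 := fun h => by
  have h8 : ((a ^ 2 + b ^ 2 + c ^ 2 : ℤ) : ZMod 8) = 7 := by rw [h]; rfl
  push_cast at h8
  generalize (a : ZMod 8) = x, (b : ZMod 8) = y, (c : ZMod 8) = z at h8
  revert x y z
  decide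

/-- A vector of square one is a signed unit vector. -/
theorem exists_unit_index {r : ℕ} {v : Fin r → ℤ} (h : v ⬝ᵥ v = 1) :
    ∃ i, v i ≠ 0 ∧ ∀ j ≠ i, v j = 0 := by
  have hv : v ≠ 0 := fun e => by simp [e] at h
  obtain ⟨i, hi⟩ := Function.ne_iff.1 hv
  refine ⟨i, hi, fun j hj => by_contra fun hjn => ?_⟩
  have h2 : v i * v i + v j * v j ≤ v ⬝ᵥ v :=
    (Finset.sum_pair hj.symm).symm.trans_le (Finset.sum_le_sum_of_subset_of_nonneg
      (f := fun l => v l * v l) (Finset.subset_univ {i, j}) fun l _ _ => mul_self_nonneg _)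
  have := mul_self_pos.2 hi
  have := mul_self_pos.2 hjn
  omega

/-- **Fewer than `n + 3` squares do not suffice.** -/
theorem seven_ne_squares (k : ℕ) (P : Matrix (Fin (k + 3)) (Fin (k + 1)) ℤ) :
    sevenForm k ≠ Pᵀ * P := fun h => by
  classical
  have hdot : ∀ j l, (fun i => P i j) ⬝ᵥ (fun i => P i l) = sevenForm k j l :=
    fun j l => by rw [dot_col, h]
  choose σ hσ hσ' using fun j : Fin k => exists_unit_index (v := fun i => P i j.castSucc)
    (by rw [hdot]; simp [sevenForm])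
  have horth : ∀ (j : Fin k) (l : Fin (k + 1)), j.castSucc ≠ l → P (σ j) l = 0 := fun j l hjl => by
    have e := hdot j.castSucc l
    rw [dotProduct, Finset.sum_eq_single (σ j) (fun i _ hi => by rw [hσ' j i hi, zero_mul])
      (fun hn => absurd (Finset.mem_univ _) hn), sevenForm, diagonal_apply_ne _ hjl] at e
    exact (mul_eq_zero.1 e).resolve_left (hσ j)
  have hinj : Function.Injective σ := fun j l e => by_contra fun hne =>
    hσ l (e ▸ horth j l.castSucc fun e' => hne (Fin.castSucc_injective _ e'))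
  obtain ⟨a, b, c, hab, hac, hbc, habc⟩ := Finset.card_eq_three.1
    (show (Finset.univ.image σ)ᶜ.card = 3 by
      rw [Finset.card_compl, Finset.card_image_of_injective _ hinj]
      simp)
  refine seven_not_three_squares (P a (Fin.last k)) (P b (Fin.last k)) (P c (Fin.last k)) ?_
  have e := hdot (Fin.last k) (Fin.last k)
  rw [sevenForm, diagonal_apply_eq, Fin.snoc_last, dotProduct] at e
  rw [← e, ← Finset.sum_subset (Finset.subset_univ (Finset.univ.image σ)ᶜ) fun i _ hi => ?_,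
    habc, Finset.sum_insert (by simp [hab, hac]), Finset.sum_pair hbc]
  · ring
  · obtain ⟨j, rfl⟩ : ∃ j, σ j = i := by simpa using hi
    rw [horth j _ (Fin.castSucc_ne_last j), zero_mul]

/-- The root lattice `E₆`. -/
def e6Gram : Matrix (Fin 6) (Fin 6) ℤ :=
  !![2, -1, -1, -1, 0, 0;
    -1, 2, 0, 0, -1, 0;
    -1, 0, 2, 0, 0, -1;
    -1, 0, 0, 2, 0, 0;
    0, -1, 0, 0, 2, 0;
    0, 0, -1, 0, 0, 2]

theorem positiveForm_e6 : PositiveForm e6Gram := by
  refine ⟨by unfold e6Gram Matrix.IsSymm; decide +kernel, fun x hx => ?_⟩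
  have h : 6 * (x ⬝ᵥ (e6Gram *ᵥ x)) = 3 * (2 * x 4 - x 1) ^ 2 + (3 * x 1 - 2 * x 0) ^ 2 +
      3 * (2 * x 5 - x 2) ^ 2 + (3 * x 2 - 2 * x 0) ^ 2 + 3 * (2 * x 3 - x 0) ^ 2 + x 0 ^ 2 := by
    simp [e6Gram, Matrix.mulVec, dotProduct, Fin.sum_univ_succ]
    ring
  by_contra hle
  push Not at hle
  have := sq_nonneg (2 * x 4 - x 1)
  have := sq_nonneg (3 * x 1 - 2 * x 0)
  have := sq_nonneg (2 * x 5 - x 2)
  have := sq_nonneg (3 * x 2 - 2 * x 0)
  have := sq_nonneg (2 * x 3 - x 0)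
  have := sq_nonneg (x 0)
  have z : ∀ u : ℤ, u ^ 2 = 0 → u = 0 := fun u hu => pow_eq_zero_iff two_ne_zero |>.1 hu
  have := z (x 0) (by linarith)
  have := z (3 * x 1 - 2 * x 0) (by linarith)
  have := z (3 * x 2 - 2 * x 0) (by linarith)
  have := z (2 * x 3 - x 0) (by linarith)
  have := z (2 * x 4 - x 1) (by linarith)
  have := z (2 * x 5 - x 2) (by linarith)
  exact hx (funext fun i => by fin_cases i <;> simp <;> omega)

/-- Two orthogonal vectors of square two with a common entry: all entries of the sum are even. -/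
theorem even_add {r : ℕ} {u v : Fin r → ℤ} (hu : u ⬝ᵥ u = 2) (hv : v ⬝ᵥ v = 2) (huv : u ⬝ᵥ v = 0)
    {i : Fin r} (hi : u i ≠ 0) (he : v i = u i) (a : Fin r → ℤ) : 2 ∣ a ⬝ᵥ u + a ⬝ᵥ v := by
  have hw : (u + v) ⬝ᵥ (u + v) = 4 := by
    simp only [add_dotProduct, dotProduct_add, dotProduct_comm v u, hu, hv, huv]
    norm_num
  have h0 : ∀ j ≠ i, (u + v) j = 0 := fun j hj => by_contra fun hjn => by
    have h2 : (u + v) i * (u + v) i + (u + v) j * (u + v) j ≤ (u + v) ⬝ᵥ (u + v) :=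
      (Finset.sum_pair hj.symm).symm.trans_le (Finset.sum_le_sum_of_subset_of_nonneg
        (f := fun l => (u + v) l * (u + v) l) (Finset.subset_univ {i, j})
        fun l _ _ => mul_self_nonneg _)
    have := mul_self_pos.2 hjn
    have h1 : 4 ≤ (u + v) i * (u + v) i := by
      rw [Pi.add_apply, he]
      nlinarith [mul_self_pos.2 hi]
    omega
  rw [← dotProduct_add, dotProduct, Finset.sum_eq_single i (fun j _ hj => by rw [h0 j hj, mul_zero])
    (fun h => absurd (Finset.mem_univ i) h), Pi.add_apply, he]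
  exact ⟨a i * u i, by ring⟩

/-- **`E₆` is no sum of squares of linear forms.** -/
theorem e6_ne_squares {r : ℕ} (P : Matrix (Fin r) (Fin 6) ℤ) : e6Gram ≠ Pᵀ * P := fun h => by
  classical
  obtain ⟨c, hc⟩ : ∃ c : Fin 6 → Fin r → ℤ, ∀ j i, c j i = P i j := ⟨_, fun _ _ => rfl⟩
  have hdot : ∀ j l, c j ⬝ᵥ c l = e6Gram j l := fun j l => by
    rw [h, ← dot_col, funext (hc j), funext (hc l)]
  have hbd : ∀ (j : Fin 6) i, -1 ≤ c j i ∧ c j i ≤ 1 := fun j i => by
    have h2 : c j i * c j i ≤ c j ⬝ᵥ c j :=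
      Finset.single_le_sum (f := fun l => c j l * c j l) (fun l _ => mul_self_nonneg _)
        (Finset.mem_univ i)
    rw [hdot, show e6Gram j j = 2 by fin_cases j <;> rfl] at h2
    exact ⟨by nlinarith, by nlinarith⟩
  have hshare : ∀ j : Fin 6, c 0 ⬝ᵥ c j = -1 → ∃ i, c 0 i ≠ 0 ∧ c j i = -c 0 i := fun j hj => by
    obtain ⟨i, -, hi⟩ : ∃ i ∈ Finset.univ, c 0 i * c j i < 0 := by
      by_contra hne
      push Not at hne
      have := Finset.sum_nonneg hne
      rw [show ∑ i, c 0 i * c j i = c 0 ⬝ᵥ c j from rfl, hj] at this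
      omega
    have h1 := hbd 0 i
    have h2 := hbd j i
    obtain e | e | e : c 0 i = -1 ∨ c 0 i = 0 ∨ c 0 i = 1 := by omega
    all_goals rw [e] at hi
    · exact ⟨i, by omega, by omega⟩
    · simp at hi
    · exact ⟨i, by omega, by omega⟩
  obtain ⟨p, hp0, hp⟩ := hshare 1 (by rw [hdot]; rfl)
  obtain ⟨q, hq0, hq⟩ := hshare 2 (by rw [hdot]; rfl)
  obtain ⟨t, ht0, ht⟩ := hshare 3 (by rw [hdot]; rfl)
  have hpair : p = q ∨ p = t ∨ q = t := by
    by_contra hne
    push Not at hne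
    have h3 : ∑ i ∈ {p, q, t}, c 0 i * c 0 i ≤ c 0 ⬝ᵥ c 0 :=
      Finset.sum_le_sum_of_subset_of_nonneg (f := fun l => c 0 l * c 0 l)
        (Finset.subset_univ _) fun l _ _ => mul_self_nonneg _
    rw [Finset.sum_insert (by simp [hne.1, hne.2.1]), Finset.sum_pair hne.2.2, hdot,
      show e6Gram 0 0 = 2 from rfl] at h3
    have := mul_self_pos.2 hp0
    have := mul_self_pos.2 hq0
    have := mul_self_pos.2 ht0
    omega
  have key : ∀ (j l a : Fin 6) (i : Fin r), e6Gram j j = 2 → e6Gram l l = 2 → e6Gram j l = 0 →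
      c 0 i ≠ 0 → c j i = -c 0 i → c l i = -c 0 i → ¬ 2 ∣ e6Gram a j + e6Gram a l → False :=
    fun j l a i h1 h2 h3 h4 h5 h6 h7 => h7 <| by
      rw [← hdot, ← hdot]
      exact even_add (by rw [hdot, h1]) (by rw [hdot, h2]) (by rw [hdot, h3])
        (i := i) (by omega) (by omega) (c a)
  rcases hpair with rfl | rfl | rfl
  · exact key 1 2 4 p rfl rfl rfl hp0 hp hq (by decide)
  · exact key 1 3 4 p rfl rfl rfl hp0 hp ht (by decide)
  · exact key 2 3 5 q rfl rfl rfl hq0 hq ht (by decide)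

/-- From rank six on there are positive forms that are no sums of squares. -/
theorem exists_ne_squares {n : ℕ} (hn : 6 ≤ n) :
    ∃ A : Matrix (Fin n) (Fin n) ℤ, PositiveForm A ∧
      ∀ (r : ℕ) (P : Matrix (Fin r) (Fin n) ℤ), A ≠ Pᵀ * P := by
  obtain ⟨B, hB⟩ := IndefiniteUnimodular.iso_fin_of_card
    (A := dsum e6Gram (1 : Matrix (Fin (n - 6)) (Fin (n - 6)) ℤ)) (m := n) (by simp; omega)
  obtain ⟨R, S, hRS, hSR, hR⟩ := hB
  have hsymm : (dsum e6Gram (1 : Matrix (Fin (n - 6)) (Fin (n - 6)) ℤ)).IsSymm :=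
    Matrix.IsSymm.fromBlocks positiveForm_e6.1 Matrix.transpose_zero Matrix.transpose_one
  refine ⟨B, ⟨?_, fun x hx => ?_⟩, fun r P hP => ?_⟩
  · rw [hR, Matrix.IsSymm, Matrix.transpose_mul, Matrix.transpose_mul, transpose_transpose,
      hsymm.eq, Matrix.mul_assoc]
  · show 0 < val B x
    rw [hR, IndefiniteUnimodular.val_congr, IndefiniteUnimodular.val_dsum']
    obtain ⟨y, hy⟩ : ∃ y, y = R *ᵥ x := ⟨_, rfl⟩
    have hy0 : y ≠ 0 := fun e => hx <| by
      have := congrArg (fun v => S *ᵥ v) (hy ▸ e : R *ᵥ x = 0)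
      simpa [Matrix.mulVec_mulVec, hSR] using this
    rw [← hy, val, val, Matrix.one_mulVec]
    have h1 : 0 ≤ (y ∘ Sum.inr) ⬝ᵥ (y ∘ Sum.inr) :=
      Finset.sum_nonneg fun l _ => mul_self_nonneg _
    by_cases h0 : y ∘ Sum.inl = 0
    · obtain ⟨l, hl⟩ := Function.ne_iff.1 hy0
      rcases l with l | l
      · exact absurd (congrFun h0 l) hl
      · have h2 : 0 < (y ∘ Sum.inr) ⬝ᵥ (y ∘ Sum.inr) := Finset.sum_pos'
          (fun l _ => mul_self_nonneg _) ⟨l, Finset.mem_univ l, mul_self_pos.2 hl⟩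
        rw [h0, zero_dotProduct]
        omega
    · have := positiveForm_e6.2 _ h0
      omega
  · have e : dsum e6Gram (1 : Matrix (Fin (n - 6)) (Fin (n - 6)) ℤ) = (P * S)ᵀ * (P * S) := by
      rw [Matrix.transpose_mul, Matrix.mul_assoc, ← Matrix.mul_assoc Pᵀ, ← hP, hR,
        Matrix.mul_assoc, hRS, Matrix.mul_one, ← Matrix.mul_assoc,
        ← Matrix.transpose_mul, hRS, Matrix.transpose_one, Matrix.one_mul]
    refine e6_ne_squares ((P * S).submatrix id Sum.inl) ?_
    ext i j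
    exact congrFun (congrFun e (Sum.inl i)) (Sum.inl j)

end FA.FormSquares

end
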